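import Mathlib
import Fermat.Prelude.Def_ModularCurve_X0

/-!
# S24 bridge: the formal `q`-expansions of `Δ` and `E₄`

`qExpansion 1 Δ = X * (∏ (1 - Xⁿ))²⁴` (the frozen formal product `ModularCurve.dedekindEtaUnit`)
and `qExpansion 1 E₄ = ModularCurve.eisenstein4`, as identities of complex power series.
-/

open UpperHalfPlane ModularForm Filter
open scoped MatrixGroups ModularForm Manifold Topology Real
open scoped PowerSeries.WithPiTopology

namespace Fermat.Agent.S24.Bridge

/-- Taylor series at `0` of a function `ℂ → ℂ` -/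
noncomputable def taylorSeries (F : ℂ → ℂ) : PowerSeries ℂ :=
  PowerSeries.mk fun m => ((m.factorial : ℂ))⁻¹ * iteratedDeriv m F 0

theorem coeff_taylorSeries (F : ℂ → ℂ) (m : ℕ) :
    (taylorSeries F).coeff m = ((m.factorial : ℂ))⁻¹ * iteratedDeriv m F 0 := by
  simp [taylorSeries]

theorem qExpansion_eq_taylorSeries (h : ℝ) (f : ℍ → ℂ) :
    qExpansion h f = taylorSeries (cuspFunction h f) := rfl

theorem taylorSeries_congr {F G : ℂ → ℂ} (h : F =ᶠ[𝓝 0] G) : taylorSeries F = taylorSeries G := by
  ext m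
  rw [coeff_taylorSeries, coeff_taylorSeries, h.iteratedDeriv_eq m]

theorem taylorSeries_mul {F G : ℂ → ℂ} (hF : AnalyticAt ℂ F 0) (hG : AnalyticAt ℂ G 0) :
    taylorSeries (F * G) = taylorSeries F * taylorSeries G := by
  ext
  simp only [coeff_taylorSeries, iteratedDeriv_mul hF.contDiffAt hG.contDiffAt, Finset.mul_sum,
    PowerSeries.coeff_mul, Finset.Nat.sum_antidiagonal_eq_sum_range_succ_mk, Nat.succ_eq_add_one]
  refine Finset.sum_congr rfl fun i hi ↦ ?_
  rw [Nat.cast_choose _ (by grind)]
  field_simp [Nat.factorial_ne_zero]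

theorem iteratedDeriv_eval (p : Polynomial ℂ) (m : ℕ) :
    iteratedDeriv m (fun q => p.eval q) = fun q => (Polynomial.derivative^[m] p).eval q := by
  induction m with
  | zero => rfl
  | succ m ih =>
    rw [iteratedDeriv_succ, ih, Function.iterate_succ_apply']
    funext q
    exact Polynomial.deriv _

theorem taylorSeries_eval (p : Polynomial ℂ) :
    taylorSeries (fun q => p.eval q) = (p : PowerSeries ℂ) := by
  ext m
  rw [coeff_taylorSeries, iteratedDeriv_eval]
  show _ * Polynomial.eval 0 _ = _
  rw [← Polynomial.coeff_zero_eq_eval_zero,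
    Polynomial.coeff_iterate_derivative, zero_add, Nat.descFactorial_self, Polynomial.coeff_coe,
    nsmul_eq_mul]
  field_simp [Nat.factorial_ne_zero]

theorem taylorSeries_one : taylorSeries (1 : ℂ → ℂ) = 1 := by
  have h1 := taylorSeries_eval 1
  have h2 : (fun q : ℂ => (1 : Polynomial ℂ).eval q) = (1 : ℂ → ℂ) := by
    funext q
    simp
  rw [h2] at h1
  simpa using h1

theorem taylorSeries_id : taylorSeries (fun q : ℂ => q) = PowerSeries.X := by
  have := taylorSeries_eval Polynomial.X
  simpa using this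

theorem taylorSeries_pow {F : ℂ → ℂ} (hF : AnalyticAt ℂ F 0) (n : ℕ) :
    taylorSeries (F ^ n) = taylorSeries F ^ n := by
  induction n with
  | zero => simpa using taylorSeries_one
  | succ n ih => rw [pow_succ, taylorSeries_mul (hF.pow n) hF, ih, pow_succ]

/-! ### the infinite product `∏ (1 - qⁿ)` -/

/-- the partial products of `∏ (1 - qⁿ)` as polynomials -/
noncomputable def etaPoly (s : Finset ℕ) : Polynomial ℂ :=
  ∏ n ∈ s, (1 - Polynomial.X ^ (n + 1))

theorem eval_etaPoly (s : Finset ℕ) (q : ℂ) :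
    (etaPoly s).eval q = ∏ n ∈ s, (1 - q ^ (n + 1)) := by
  simp [etaPoly, Polynomial.eval_prod]

theorem coe_etaPoly (s : Finset ℕ) :
    ((etaPoly s : Polynomial ℂ) : PowerSeries ℂ) =
      PowerSeries.map (Int.castRingHom ℂ) (∏ n ∈ s, (1 - PowerSeries.X ^ (n + 1))) := by
  rw [map_prod]
  unfold etaPoly
  rw [← Polynomial.coeToPowerSeries.ringHom_apply, map_prod]
  simp

theorem tendstoLocallyUniformlyOn_iteratedDeriv (m : ℕ) :
    TendstoLocallyUniformlyOn
      (fun (s : Finset ℕ) => iteratedDeriv m (fun q : ℂ => (etaPoly s).eval q))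
      (iteratedDeriv m (fun q : ℂ => ∏' n : ℕ, (1 - q ^ (n + 1)))) atTop (Metric.ball 0 1) := by
  induction m with
  | zero =>
    have := multipliableLocallyUniformlyOn_one_sub_pow.hasProdLocallyUniformlyOn
    simp only [iteratedDeriv_zero]
    rw [HasProdLocallyUniformlyOn] at this
    convert this using 2 with s
    funext q
    exact eval_etaPoly s q
  | succ m ih =>
    have := ih.deriv (Eventually.of_forall fun s => ?_) Metric.isOpen_ball
    · simpa only [iteratedDeriv_succ, Function.comp_def] using this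
    · rw [iteratedDeriv_eval]
      exact (Polynomial.differentiable _).differentiableOn

theorem eventually_coeff_eq (m : ℕ) :
    ∀ᶠ s : Finset ℕ in atTop,
      PowerSeries.coeff m (∏ n ∈ s, (1 - PowerSeries.X ^ (n + 1)) : PowerSeries ℤ) =
        PowerSeries.coeff m ModularCurve.etaProd := by
  have h1 : HasProd (fun n : ℕ => (1 : PowerSeries ℤ) - PowerSeries.X ^ (n + 1))
      ModularCurve.etaProd :=
    (PowerSeries.WithPiTopology.multipliable_one_sub_X_pow ℤ).hasProd
  have h2 := ((PowerSeries.WithPiTopology.continuous_coeff (R := ℤ) m).tendsto _).comp h1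
  rw [nhds_discrete, tendsto_pure] at h2
  exact h2

/-- the Taylor series of the analytic product `∏ (1 - qⁿ)` is the formal product -/
theorem taylorSeries_tprod :
    taylorSeries (fun q : ℂ => ∏' n : ℕ, (1 - q ^ (n + 1))) =
      PowerSeries.map (Int.castRingHom ℂ) ModularCurve.etaProd := by
  ext m
  rw [coeff_taylorSeries, PowerSeries.coeff_map]
  have h1 : Tendsto (fun s : Finset ℕ => iteratedDeriv m (fun q : ℂ => (etaPoly s).eval q) 0) atTop
      (𝓝 (iteratedDeriv m (fun q : ℂ => ∏' n : ℕ, (1 - q ^ (n + 1))) 0)) :=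
    (tendstoLocallyUniformlyOn_iteratedDeriv m).tendsto_at (Metric.mem_ball_self one_pos)
  have h2 : ∀ᶠ s : Finset ℕ in atTop, iteratedDeriv m (fun q : ℂ => (etaPoly s).eval q) 0 =
      (m.factorial : ℂ) * (Int.castRingHom ℂ) (PowerSeries.coeff m ModularCurve.etaProd) := by
    filter_upwards [eventually_coeff_eq m] with s hs
    have := congrArg (PowerSeries.coeff m) (taylorSeries_eval (etaPoly s))
    rw [coeff_taylorSeries, coe_etaPoly, PowerSeries.coeff_map, hs] at this
    rw [← this]
    field_simp [Nat.factorial_ne_zero]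
  have h3 := tendsto_nhds_unique (h1.congr' h2) tendsto_const_nhds
  rw [h3]
  field_simp [Nat.factorial_ne_zero]

theorem analyticAt_tprod : AnalyticAt ℂ (fun q : ℂ => ∏' n : ℕ, (1 - q ^ (n + 1))) 0 :=
  differentiableOn_tprod_one_sub_pow.analyticAt (Metric.ball_mem_nhds 0 one_pos)

/-- the `q`-expansion of `Δ` is the frozen formal series `q ∏ (1 - qⁿ)²⁴` -/
theorem qExpansion_discriminant :
    qExpansion 1 ModularForm.discriminant =
      PowerSeries.X * PowerSeries.map (Int.castRingHom ℂ) ModularCurve.dedekindEtaUnit := by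
  rw [qExpansion_eq_taylorSeries]
  have h1 : cuspFunction 1 ModularForm.discriminant =ᶠ[𝓝 0]
      (fun q : ℂ => q) * (fun q : ℂ => ∏' n : ℕ, (1 - q ^ (n + 1))) ^ 24 := by
    filter_upwards [Metric.ball_mem_nhds (0 : ℂ) one_pos] with q hq
    rw [discriminant_cuspFunction_eqOn hq]
    simp only [Pi.mul_apply, Pi.pow_apply]
    rw [(multipliable_one_sub_pow (by simpa using hq)).tprod_pow 24]
  have hid : AnalyticAt ℂ (fun q : ℂ => q) 0 := analyticAt_id
  rw [taylorSeries_congr h1, taylorSeries_mul hid (analyticAt_tprod.pow 24),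
    taylorSeries_pow analyticAt_tprod, taylorSeries_id, taylorSeries_tprod,
    ModularCurve.dedekindEtaUnit, map_pow]

/-- the `q`-expansion of `E₄` is the frozen formal series `1 + 240 ∑ σ₃(n) qⁿ` -/
theorem qExpansion_E4 :
    qExpansion 1 E₄ = PowerSeries.map (Int.castRingHom ℂ) ModularCurve.eisenstein4 := by
  ext m
  rw [EisensteinSeries.E_qExpansion_coeff _ ⟨2, rfl⟩, PowerSeries.coeff_map]
  simp only [ModularCurve.eisenstein4, PowerSeries.coeff_mk]
  have hb : bernoulli 4 = -1 / 30 := by decide +kernel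
  split_ifs with hm
  · simp
  · rw [hb, ArithmeticFunction.sigma_apply]
    simp only [eq_intCast]
    push_cast
    ring

end Fermat.Agent.S24.Bridge
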