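import Fermat.Agent.S24.Bridge.Laurent
import Fermat.Agent.S24.Bridge.Formal
import Fermat.Agent.S24.JFun
import Fermat.Prelude.Def_ModularCurve_JqCoeff
import Fermat.Prelude.Thm_ModularCurve_coeffMap_qExpand

/-!
# S24 bridge: the Laurent expansion of the analytic `j`-function is the formal `jq`

`laurent 1 jFun = coeffMap (algebraMap ℚ ℂ) jq`, and the scaled version
`laurent 1 (z ↦ jFun (d z)) = coeffMap (algebraMap ℚ ℂ) (qExpand ℚ d jq)`.
-/

open UpperHalfPlane ModularForm Filter
open scoped MatrixGroups ModularForm Manifold Topology Real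

namespace Fermat.Agent.S24.Bridge

open Fermat.Agent.S20 Fermat.Agent.S24

theorem jFun_vadd_one (z : ℍ) : jFun ((1 : ℝ) +ᵥ z) = jFun z := by
  have h := jFun_smul ModularGroup.T z
  rw [modular_T_smul] at h
  exact h

theorem isMeroInf_jFun : IsMeroInf 1 jFun :=
  ⟨mdiff_jFun, fun z => by simpa using jFun_vadd_one z, 1, by
    simpa using isBoundedAtImInfty_jFun_mul_Dl⟩

theorem isHolBdd_E4 : IsHolBdd 1 E4 := by
  refine ⟨isMF_E4.holo, fun z => ?_, ?_⟩
  · have := SlashInvariantForm.vAdd_apply_of_mem_strictPeriods ModularForm.E₄ z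
      one_mem_strictPeriods_SL
    rw [Nat.cast_one]
    exact this
  · have := isMF_E4.bdd 1
    simpa using this

theorem DlSeries_one :
    DlSeries 1 = HahnSeries.single (1 : ℤ) (1 : ℂ) *
      HahnSeries.ofPowerSeries ℤ ℂ
        (PowerSeries.map (Int.castRingHom ℂ) ModularCurve.dedekindEtaUnit) := by
  unfold DlSeries
  rw [Nat.cast_one]
  show HahnSeries.ofPowerSeries ℤ ℂ (qExpansion 1 ModularForm.discriminant) = _
  rw [qExpansion_discriminant, map_mul, HahnSeries.ofPowerSeries_X]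

/-- the formal `j`-series over `ℂ` -/
theorem coeffMap_jq :
    ModularCurve.coeffMap (algebraMap ℚ ℂ) ModularCurve.jq = ModularCurve.jqModC ℂ := by
  rw [← ModularCurve.jqModC_rat]
  exact ModularCurve.map_jqModC (algebraMap ℚ ℂ)

/-- the Laurent expansion of the analytic `j`-function is the formal `j`-series -/
theorem laurent_jFun :
    laurent 1 jFun = ModularCurve.coeffMap (algebraMap ℚ ℂ) ModularCurve.jq := by
  have hb : IsBoundedAtImInfty (fun z => jFun z * Dl z ^ 1) := by
    simpa using isBoundedAtImInfty_jFun_mul_Dl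
  refine laurent_eq_of_mul_pow isMeroInf_jFun 1 hb _ ?_
  have e : (fun z => jFun z * Dl z ^ 1) = fun z => E4 z * E4 z * E4 z := by
    funext z
    rw [pow_one, jFun_mul_Dl]
    ring
  have hE : qExpansion ((1 : ℕ) : ℝ) E4 =
      PowerSeries.map (Int.castRingHom ℂ) ModularCurve.eisenstein4 := by
    rw [Nat.cast_one]
    exact qExpansion_E4
  rw [e, qExpansion_mul' (isHolBdd_E4.mul isHolBdd_E4) isHolBdd_E4,
    qExpansion_mul' isHolBdd_E4 isHolBdd_E4, hE, coeffMap_jq, ModularCurve.jqModC, DlSeries_one,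
    pow_one]
  have h1 : PowerSeries.map (Int.castRingHom ℂ) ModularCurve.jNum *
      PowerSeries.map (Int.castRingHom ℂ) ModularCurve.dedekindEtaUnit =
      PowerSeries.map (Int.castRingHom ℂ) ModularCurve.eisenstein4 *
        PowerSeries.map (Int.castRingHom ℂ) ModularCurve.eisenstein4 *
        PowerSeries.map (Int.castRingHom ℂ) ModularCurve.eisenstein4 := by
    rw [← map_mul, ← map_mul, ← map_mul]
    congr 1
    rw [ModularCurve.jNum, mul_assoc, mul_comm ModularCurve.dedekindEtaUnitInv,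
      ModularCurve.dedekindEtaUnit_mul_inv, mul_one]
    ring
  rw [← h1, map_mul]
  have h2 : HahnSeries.single (-1 : ℤ) (1 : ℂ) * HahnSeries.single (1 : ℤ) (1 : ℂ) = 1 := by
    rw [HahnSeries.single_mul_single]
    simp
  calc HahnSeries.single (-1 : ℤ) (1 : ℂ) *
        HahnSeries.ofPowerSeries ℤ ℂ (PowerSeries.map (Int.castRingHom ℂ) ModularCurve.jNum) *
        (HahnSeries.single (1 : ℤ) (1 : ℂ) * HahnSeries.ofPowerSeries ℤ ℂ
          (PowerSeries.map (Int.castRingHom ℂ) ModularCurve.dedekindEtaUnit))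
      = (HahnSeries.single (-1 : ℤ) (1 : ℂ) * HahnSeries.single (1 : ℤ) (1 : ℂ)) *
        (HahnSeries.ofPowerSeries ℤ ℂ (PowerSeries.map (Int.castRingHom ℂ) ModularCurve.jNum) *
          HahnSeries.ofPowerSeries ℤ ℂ
            (PowerSeries.map (Int.castRingHom ℂ) ModularCurve.dedekindEtaUnit)) := by ring
    _ = _ := by rw [h2, one_mul]

/-- the Laurent expansion of `z ↦ j (d z)` is the formal series `j (q ^ d)` -/
theorem isMeroInf_jFun_scale {d : ℕ} (hd : d ≠ 0) {s : ℍ → ℍ} (hs : ∀ z, (s z : ℂ) = d * z) :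
    IsMeroInf 1 (fun z => jFun (s z)) :=
  isMeroInf_jFun.scale hd hs

theorem laurent_jFun_scale {d : ℕ} [NeZero d] {s : ℍ → ℍ} (hs : ∀ z, (s z : ℂ) = d * z) :
    laurent 1 (fun z => jFun (s z)) =
      ModularCurve.coeffMap (algebraMap ℚ ℂ) (ModularCurve.qExpand ℚ d ModularCurve.jq) := by
  rw [laurent_scale isMeroInf_jFun hs, laurent_jFun, ModularCurve.coeffMap_qExpand]

end Fermat.Agent.S24.Bridge
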