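import Fermat.Agent.S24.Defs
import Fermat.Agent.S24.Bridge.JLaurent

/-!
# S24 bridge: the Laurent expansion of `jScaled d` (the function `z ↦ j (d z)` of `Defs`)
-/

open UpperHalfPlane ModularForm Filter
open scoped MatrixGroups ModularForm Manifold Topology Real

namespace Fermat.Agent.S24.Bridge

open Fermat.Agent.S20 Fermat.Agent.S24

theorem coe_ofComplex_natCast_mul {d : ℕ} (hd : 0 < d) (z : ℍ) :
    ((ofComplex ((d : ℂ) * (z : ℂ)) : ℍ) : ℂ) = d * z := by
  have him : 0 < ((d : ℂ) * (z : ℂ)).im := by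
    simp only [Complex.mul_im, Complex.natCast_re, Complex.natCast_im, zero_mul, add_zero]
    exact mul_pos (Nat.cast_pos.mpr hd) z.im_pos
  rw [ofComplex_apply_of_im_pos him]

theorem coe_jScaled (d : ℕ) (hd : 0 < d) :
    ((jScaled d hd : Hol) : ℍ → ℂ) = fun z : ℍ => jFun (ofComplex ((d : ℂ) * (z : ℂ))) :=
  funext (jScaled_apply d hd)

theorem isMeroInf_jScaled (d : ℕ) (hd : 0 < d) :
    IsMeroInf 1 ((jScaled d hd : Hol) : ℍ → ℂ) := by
  rw [coe_jScaled]
  exact isMeroInf_jFun_scale hd.ne' (s := fun z : ℍ => ofComplex ((d : ℂ) * (z : ℂ)))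
    (coe_ofComplex_natCast_mul hd)

/-- the Laurent expansion at `i∞` of `z ↦ j (d z)` is the formal series `j (q ^ d)` -/
theorem laurent_jScaled (d : ℕ) [NeZero d] (hd : 0 < d) :
    laurent 1 ((jScaled d hd : Hol) : ℍ → ℂ) =
      ModularCurve.coeffMap (algebraMap ℚ ℂ) (ModularCurve.qExpand ℚ d ModularCurve.jq) := by
  rw [coe_jScaled]
  exact laurent_jFun_scale (s := fun z : ℍ => ofComplex ((d : ℂ) * (z : ℂ)))
    (coe_ofComplex_natCast_mul hd)

theorem jScaled_mem_meroInf (d : ℕ) (hd : 0 < d) :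
    ((jScaled d hd : Hol) : ℍ → ℂ) ∈ meroInf 1 :=
  isMeroInf_jScaled d hd

end Fermat.Agent.S24.Bridge
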