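import Mathlib
import Fermat.Agent.S20.LevelOneDefs
import Fermat.Prelude.Def_ModularCurve_X0
import Fermat.Prelude.Def_ModularCurve_LaurentCoeff
import Fermat.Prelude.Thm_UpperHalfPlane_qExpansion_coeff_nat_mul

/-!
# S24 bridge: Laurent expansions at `i∞` (width `h`)

For `h : ℕ`, `h ≠ 0`, the `ℂ`-algebra `meroInf h` of holomorphic functions on the upper half plane
that are `h`-periodic and meromorphic at `i∞` (i.e. `f · Δⁿ` is bounded at `i∞` for some `n`), and
the injective algebra homomorphism `laurentHom h : meroInf h →ₐ[ℂ] LaurentSeries ℂ` sending a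
function to its Laurent expansion in `q_h = exp (2 π i z / h)`.
-/

open UpperHalfPlane ModularForm Filter
open scoped MatrixGroups ModularForm Manifold Topology Real

namespace Fermat.Agent.S24.Bridge

open Fermat.Agent.S20

local notation "𝕢" => Function.Periodic.qParam

/-! ### generalities -/

theorem periodic_comp_ofComplex {h : ℕ} {f : ℍ → ℂ} (hper : ∀ z : ℍ, f ((h : ℝ) +ᵥ z) = f z) :
    Function.Periodic (f ∘ ofComplex) ((h : ℝ) : ℂ) := by
  intro w
  by_cases! hw : 0 < Complex.im w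
  · have : 0 < Complex.im (w + ((h : ℝ) : ℂ)) := by simp [hw]
    simp only [Function.comp_apply, ofComplex_apply_of_im_pos this, ofComplex_apply_of_im_pos hw]
    convert hper ⟨w, hw⟩ using 2
    ext
    simp [add_comm]
  · have : Complex.im (w + ((h : ℝ) : ℂ)) ≤ 0 := by simpa using hw
    simp only [Function.comp_apply]
    rw [ofComplex_apply_of_im_nonpos this, ofComplex_apply_of_im_nonpos hw]

theorem periodic_mul_of_periodic {f : ℍ → ℂ} {h : ℕ} (hper : ∀ z : ℍ, f ((h : ℝ) +ᵥ z) = f z)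
    (m : ℕ) (z : ℍ) : f (((h * m : ℕ) : ℝ) +ᵥ z) = f z := by
  induction m with
  | zero => simp
  | succ m ih =>
    have e : ((h * (m + 1) : ℕ) : ℝ) +ᵥ z = (h : ℝ) +ᵥ (((h * m : ℕ) : ℝ) +ᵥ z) := by
      rw [vadd_vadd]
      congr 1
      push_cast
      ring
    rw [e, hper, ih]

/-- uniqueness of `q`-expansion coefficients, for plain functions -/
theorem qExpansion_coeff_unique' {f : ℍ → ℂ} {c : ℕ → ℂ} {h : ℝ} (hh : 0 < h)
    (hfanalytic : AnalyticAt ℂ (cuspFunction h f) 0)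
    (hf : ∀ τ : ℍ, HasSum (fun m ↦ c m • 𝕢 h τ ^ m) (f τ)) (m : ℕ) :
    c m = (qExpansion h f).coeff m := by
  have h1 := (hasFPowerSeriesOnBall_cuspFunction hh hfanalytic hf).hasFPowerSeriesAt
  have h2 : HasFPowerSeriesAt (cuspFunction h f)
      (FormalMultilinearSeries.ofScalars ℂ fun m ↦ (qExpansion h f).coeff m) 0 := by
    simpa [qExpansion_coeff, div_eq_mul_inv, mul_comm]
      using hfanalytic.hasFPowerSeriesAt
  simpa using congr_arg (FormalMultilinearSeries.coeff · m) (h1.eq_formalMultilinearSeries h2)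

/-! ### bounded periodic holomorphic functions -/

/-- holomorphic, `h`-periodic, bounded at `i∞` -/
structure IsHolBdd (h : ℕ) (f : ℍ → ℂ) : Prop where
  mdiff : MDiff f
  per : ∀ z : ℍ, f ((h : ℝ) +ᵥ z) = f z
  bdd : IsBoundedAtImInfty f

theorem pos_cast (h : ℕ) [NeZero h] : (0 : ℝ) < (h : ℝ) :=
  Nat.cast_pos.mpr (Nat.pos_of_ne_zero (NeZero.ne h))

theorem IsHolBdd.analytic {h : ℕ} [NeZero h] {f : ℍ → ℂ} (hf : IsHolBdd h f) :
    AnalyticAt ℂ (cuspFunction h f) 0 :=
  analyticAt_cuspFunction_zero (pos_cast h) (periodic_comp_ofComplex hf.per) hf.mdiff hf.bdd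

theorem IsHolBdd.mul {h : ℕ} {f g : ℍ → ℂ} (hf : IsHolBdd h f) (hg : IsHolBdd h g) :
    IsHolBdd h (fun z => f z * g z) :=
  ⟨hf.mdiff.mul hg.mdiff, fun z => by rw [hf.per, hg.per], hf.bdd.mul hg.bdd⟩

theorem IsHolBdd.add {h : ℕ} {f g : ℍ → ℂ} (hf : IsHolBdd h f) (hg : IsHolBdd h g) :
    IsHolBdd h (fun z => f z + g z) :=
  ⟨hf.mdiff.add hg.mdiff, fun z => by rw [hf.per, hg.per], hf.bdd.add hg.bdd⟩

theorem isHolBdd_const (h : ℕ) (c : ℂ) : IsHolBdd h (fun _ => c) :=
  ⟨mdifferentiable_const, fun _ => rfl, const_boundedAtFilter atImInfty c⟩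

theorem mdiff_Dl : MDiff Dl := ModularFormClass.holo CuspForm.discriminant

theorem Dl_vadd_one (z : ℍ) : Dl ((1 : ℝ) +ᵥ z) = Dl z :=
  SlashInvariantForm.vAdd_apply_of_mem_strictPeriods CuspForm.discriminant z
    one_mem_strictPeriods_SL

theorem Dl_vadd (h : ℕ) (z : ℍ) : Dl ((h : ℝ) +ᵥ z) = Dl z := by
  have := periodic_mul_of_periodic (f := Dl) (h := 1) (fun z => by simpa using Dl_vadd_one z) h z
  simpa using this

theorem isBounded_Dl : IsBoundedAtImInfty Dl :=
  ModularForm.discriminant_isZeroAtImInfty.boundedAtFilter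

theorem isHolBdd_Dl (h : ℕ) : IsHolBdd h Dl := ⟨mdiff_Dl, Dl_vadd h, isBounded_Dl⟩

theorem isHolBdd_Dl_pow (h : ℕ) (n : ℕ) : IsHolBdd h (fun z => Dl z ^ n) := by
  induction n with
  | zero => simpa using isHolBdd_const h 1
  | succ n ih => simpa [pow_succ] using ih.mul (isHolBdd_Dl h)

theorem qExpansion_mul' {h : ℕ} [NeZero h] {f g : ℍ → ℂ} (hf : IsHolBdd h f) (hg : IsHolBdd h g) :
    qExpansion h (fun z => f z * g z) = qExpansion h f * qExpansion h g :=
  qExpansion_mul hf.analytic hg.analytic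

theorem qExpansion_add' {h : ℕ} [NeZero h] {f g : ℍ → ℂ} (hf : IsHolBdd h f) (hg : IsHolBdd h g) :
    qExpansion h (fun z => f z + g z) = qExpansion h f + qExpansion h g :=
  qExpansion_add hf.analytic hg.analytic

theorem qExpansion_const' (h : ℕ) [NeZero h] (c : ℂ) :
    qExpansion h (fun _ : ℍ => c) = PowerSeries.C c := by
  have h1 : (fun _ : ℍ => c) = c • (1 : ℍ → ℂ) := by
    funext z
    simp
  have h2 : AnalyticAt ℂ (cuspFunction h (1 : ℍ → ℂ)) 0 := by
    have := (isHolBdd_const h 1).analytic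
    exact this
  rw [h1, qExpansion_smul h2, qExpansion_one]
  ext n
  simp [PowerSeries.coeff_C]

theorem qExpansion_mul_Dl_pow {h : ℕ} [NeZero h] {f : ℍ → ℂ} (hf : IsHolBdd h f) (k : ℕ) :
    qExpansion h (fun z => f z * Dl z ^ k) = qExpansion h f * qExpansion h Dl ^ k := by
  rw [qExpansion_mul' hf (isHolBdd_Dl_pow h k)]
  congr 1
  induction k with
  | zero =>
    simpa using qExpansion_const' h 1
  | succ k ih =>
    have := qExpansion_mul' (isHolBdd_Dl_pow h k) (isHolBdd_Dl h)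
    simp only [← pow_succ] at this
    rw [this, ih, pow_succ]

theorem qExpansion_eq_zero_iff' {h : ℕ} [NeZero h] {f : ℍ → ℂ} (hf : IsHolBdd h f) :
    qExpansion h f = 0 ↔ f = 0 :=
  qExpansion_eq_zero_iff (pos_cast h) (periodic_comp_ofComplex hf.per) hf.mdiff hf.bdd

theorem qExpansion_Dl_ne_zero (h : ℕ) [NeZero h] : qExpansion h Dl ≠ 0 := by
  rw [Ne, qExpansion_eq_zero_iff' (isHolBdd_Dl h)]
  intro h0
  exact Dl_ne_zero UpperHalfPlane.I (by rw [h0]; rfl)

/-- the `q_h`-expansion of `Δ` as a Laurent series -/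
noncomputable def DlSeries (h : ℕ) : LaurentSeries ℂ :=
  HahnSeries.ofPowerSeries ℤ ℂ (qExpansion h Dl)

theorem DlSeries_ne_zero (h : ℕ) [NeZero h] : DlSeries h ≠ 0 := by
  intro h0
  apply qExpansion_Dl_ne_zero h
  apply HahnSeries.ofPowerSeries_injective (Γ := ℤ)
  rw [map_zero]
  exact h0

/-! ### functions meromorphic at `i∞` -/

/-- holomorphic, `h`-periodic, and meromorphic at `i∞` -/
def IsMeroInf (h : ℕ) (f : ℍ → ℂ) : Prop :=
  MDiff f ∧ (∀ z : ℍ, f ((h : ℝ) +ᵥ z) = f z) ∧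
    ∃ n : ℕ, IsBoundedAtImInfty (fun z => f z * Dl z ^ n)

theorem IsHolBdd.isMeroInf {h : ℕ} {f : ℍ → ℂ} (hf : IsHolBdd h f) : IsMeroInf h f :=
  ⟨hf.mdiff, hf.per, 0, by simpa using hf.bdd⟩

theorem IsMeroInf.isHolBdd {h : ℕ} {f : ℍ → ℂ} (hf : IsMeroInf h f) {n : ℕ}
    (hb : IsBoundedAtImInfty (fun z => f z * Dl z ^ n)) :
    IsHolBdd h (fun z => f z * Dl z ^ n) :=
  ⟨hf.1.mul (isHolBdd_Dl_pow h n).mdiff, fun z => by rw [hf.2.1, Dl_vadd], hb⟩

theorem IsMeroInf.bdd_add {h : ℕ} {f : ℍ → ℂ} (hf : IsMeroInf h f) {n : ℕ}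
    (hb : IsBoundedAtImInfty (fun z => f z * Dl z ^ n)) (k : ℕ) :
    IsBoundedAtImInfty (fun z => f z * Dl z ^ (n + k)) := by
  have := ((hf.isHolBdd hb).mul (isHolBdd_Dl_pow h k)).bdd
  refine this.congr (fun z => ?_) (fun _ => rfl)
  ring

theorem isMeroInf_const (h : ℕ) (c : ℂ) : IsMeroInf h (fun _ => c) :=
  (isHolBdd_const h c).isMeroInf

theorem isMeroInf_one (h : ℕ) : IsMeroInf h 1 := isMeroInf_const h 1

theorem isMeroInf_Dl (h : ℕ) : IsMeroInf h Dl := (isHolBdd_Dl h).isMeroInf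

theorem IsMeroInf.mul {h : ℕ} {f g : ℍ → ℂ} (hf : IsMeroInf h f) (hg : IsMeroInf h g) :
    IsMeroInf h (f * g) := by
  obtain ⟨n, hn⟩ := hf.2.2
  obtain ⟨m, hm⟩ := hg.2.2
  refine ⟨hf.1.mul hg.1, fun z => by simp [hf.2.1 z, hg.2.1 z], n + m, ?_⟩
  have := ((hf.isHolBdd hn).mul (hg.isHolBdd hm)).bdd
  refine this.congr (fun z => ?_) (fun _ => rfl)
  simp only [Pi.mul_apply]
  ring

theorem IsMeroInf.add {h : ℕ} {f g : ℍ → ℂ} (hf : IsMeroInf h f) (hg : IsMeroInf h g) :
    IsMeroInf h (f + g) := by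
  obtain ⟨n, hn⟩ := hf.2.2
  obtain ⟨m, hm⟩ := hg.2.2
  refine ⟨hf.1.add hg.1, fun z => by simp [hf.2.1 z, hg.2.1 z], n + m, ?_⟩
  have h1 := hf.bdd_add hn m
  have h2 := hg.bdd_add hm n
  rw [Nat.add_comm m n] at h2
  have := h1.add h2
  refine this.congr (fun z => ?_) (fun _ => rfl)
  simp only [Pi.add_apply]
  ring

/-- the algebra of `h`-periodic holomorphic functions that are meromorphic at `i∞` -/
def meroInf (h : ℕ) [NeZero h] : Subalgebra ℂ (ℍ → ℂ) where
  carrier := {f | IsMeroInf h f}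
  mul_mem' := fun hf hg => hf.mul hg
  add_mem' := fun hf hg => hf.add hg
  algebraMap_mem' := fun c => isMeroInf_const h c

theorem mem_meroInf {h : ℕ} [NeZero h] {f : ℍ → ℂ} : f ∈ meroInf h ↔ IsMeroInf h f := Iff.rfl

/-! ### the Laurent expansion -/

/-- auxiliary Laurent expansion, computed with the exponent `n` -/
noncomputable def laurentAux (h : ℕ) (f : ℍ → ℂ) (n : ℕ) : LaurentSeries ℂ :=
  HahnSeries.ofPowerSeries ℤ ℂ (qExpansion h (fun z => f z * Dl z ^ n)) *
    ((HahnSeries.ofPowerSeries ℤ ℂ (qExpansion h Dl))⁻¹) ^ n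

open Classical in
/-- the Laurent expansion in `q_h` of a function meromorphic at `i∞` -/
noncomputable def laurent (h : ℕ) (f : ℍ → ℂ) : LaurentSeries ℂ :=
  if hf : ∃ n : ℕ, IsBoundedAtImInfty (fun z => f z * Dl z ^ n) then laurentAux h f (Nat.find hf)
  else 0

theorem laurentAux_mul_pow (h : ℕ) [NeZero h] (f : ℍ → ℂ) (n : ℕ) :
    laurentAux h f n * DlSeries h ^ n =
      HahnSeries.ofPowerSeries ℤ ℂ (qExpansion h (fun z => f z * Dl z ^ n)) := by
  unfold laurentAux
  rw [mul_assoc, ← mul_pow]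
  have : (HahnSeries.ofPowerSeries ℤ ℂ (qExpansion h Dl))⁻¹ * DlSeries h = 1 :=
    inv_mul_cancel₀ (DlSeries_ne_zero h)
  rw [this, one_pow, mul_one]

theorem laurentAux_add {h : ℕ} [NeZero h] {f : ℍ → ℂ} (hf : IsMeroInf h f) {n : ℕ}
    (hb : IsBoundedAtImInfty (fun z => f z * Dl z ^ n)) (k : ℕ) :
    laurentAux h f (n + k) = laurentAux h f n := by
  have h1 := laurentAux_mul_pow h f (n + k)
  have h2 := laurentAux_mul_pow h f n
  have e : (fun z => f z * Dl z ^ (n + k)) = fun z => (f z * Dl z ^ n) * Dl z ^ k := by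
    funext z
    ring
  rw [e, qExpansion_mul_Dl_pow (hf.isHolBdd hb) k, map_mul, map_pow, ← h2] at h1
  have h3 : laurentAux h f (n + k) * DlSeries h ^ (n + k) =
      laurentAux h f n * DlSeries h ^ (n + k) := by
    rw [h1, pow_add, mul_assoc]
    rfl
  exact mul_right_cancel₀ (pow_ne_zero _ (DlSeries_ne_zero h)) h3

theorem laurent_eq_aux {h : ℕ} [NeZero h] {f : ℍ → ℂ} (hf : IsMeroInf h f) {n : ℕ}
    (hb : IsBoundedAtImInfty (fun z => f z * Dl z ^ n)) : laurent h f = laurentAux h f n := by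
  classical
  have hex : ∃ n : ℕ, IsBoundedAtImInfty (fun z => f z * Dl z ^ n) := ⟨n, hb⟩
  unfold laurent
  rw [dif_pos hex]
  have hle : Nat.find hex ≤ n := Nat.find_min' hex hb
  obtain ⟨k, hk⟩ := Nat.exists_eq_add_of_le hle
  rw [hk, laurentAux_add hf (Nat.find_spec hex) k]

/-- the defining property of the Laurent expansion -/
theorem laurent_mul_pow {h : ℕ} [NeZero h] {f : ℍ → ℂ} (hf : IsMeroInf h f) (n : ℕ)
    (hb : IsBoundedAtImInfty (fun z => f z * Dl z ^ n)) :
    laurent h f * DlSeries h ^ n =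
      HahnSeries.ofPowerSeries ℤ ℂ (qExpansion h (fun z => f z * Dl z ^ n)) := by
  rw [laurent_eq_aux hf hb, laurentAux_mul_pow]

/-- characterisation of the Laurent expansion -/
theorem laurent_eq_of_mul_pow {h : ℕ} [NeZero h] {f : ℍ → ℂ} (hf : IsMeroInf h f) (n : ℕ)
    (hb : IsBoundedAtImInfty (fun z => f z * Dl z ^ n)) (L : LaurentSeries ℂ)
    (hL : L * DlSeries h ^ n =
      HahnSeries.ofPowerSeries ℤ ℂ (qExpansion h (fun z => f z * Dl z ^ n))) :
    laurent h f = L := by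
  have := laurent_mul_pow hf n hb
  rw [← hL] at this
  exact mul_right_cancel₀ (pow_ne_zero _ (DlSeries_ne_zero h)) this

theorem laurent_of_bounded {h : ℕ} [NeZero h] {f : ℍ → ℂ} (hf : IsHolBdd h f) :
    laurent h f = HahnSeries.ofPowerSeries ℤ ℂ (qExpansion h f) := by
  have := laurent_mul_pow hf.isMeroInf 0 (by simpa using hf.bdd)
  simpa using this

theorem laurent_Dl (h : ℕ) [NeZero h] : laurent h Dl = DlSeries h :=
  laurent_of_bounded (isHolBdd_Dl h)

theorem laurent_mul {h : ℕ} [NeZero h] {f g : ℍ → ℂ} (hf : IsMeroInf h f) (hg : IsMeroInf h g) :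
    laurent h (f * g) = laurent h f * laurent h g := by
  obtain ⟨n, hn⟩ := hf.2.2
  obtain ⟨m, hm⟩ := hg.2.2
  have e : (fun z => (f * g) z * Dl z ^ (n + m)) =
      fun z => (f z * Dl z ^ n) * (g z * Dl z ^ m) := by
    funext z
    simp only [Pi.mul_apply]
    ring
  have hb : IsBoundedAtImInfty (fun z => (f * g) z * Dl z ^ (n + m)) := by
    rw [e]
    exact ((hf.isHolBdd hn).mul (hg.isHolBdd hm)).bdd
  refine laurent_eq_of_mul_pow (hf.mul hg) (n + m) hb _ ?_
  rw [e, qExpansion_mul' (hf.isHolBdd hn) (hg.isHolBdd hm), map_mul, ← laurent_mul_pow hf n hn,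
    ← laurent_mul_pow hg m hm, pow_add]
  ring

theorem laurent_add {h : ℕ} [NeZero h] {f g : ℍ → ℂ} (hf : IsMeroInf h f) (hg : IsMeroInf h g) :
    laurent h (f + g) = laurent h f + laurent h g := by
  obtain ⟨n, hn⟩ := hf.2.2
  obtain ⟨m, hm⟩ := hg.2.2
  have h1 := hf.bdd_add hn m
  have h2 := hg.bdd_add hm n
  rw [Nat.add_comm m n] at h2
  have e : (fun z => (f + g) z * Dl z ^ (n + m)) =
      fun z => (f z * Dl z ^ (n + m)) + (g z * Dl z ^ (n + m)) := by
    funext z
    simp only [Pi.add_apply]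
    ring
  have hb : IsBoundedAtImInfty (fun z => (f + g) z * Dl z ^ (n + m)) := by
    rw [e]
    exact ((hf.isHolBdd h1).add (hg.isHolBdd h2)).bdd
  refine laurent_eq_of_mul_pow (hf.add hg) (n + m) hb _ ?_
  rw [e, qExpansion_add' (hf.isHolBdd h1) (hg.isHolBdd h2), map_add,
    ← laurent_mul_pow hf (n + m) h1, ← laurent_mul_pow hg (n + m) h2]
  ring

theorem laurent_const (h : ℕ) [NeZero h] (c : ℂ) :
    laurent h (fun _ => c) = HahnSeries.C c := by
  rw [laurent_of_bounded (isHolBdd_const h c), qExpansion_const', HahnSeries.ofPowerSeries_C]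

theorem laurent_one (h : ℕ) [NeZero h] : laurent h 1 = 1 := by
  have h1 : laurent h (fun _ => (1 : ℂ)) = 1 := by rw [laurent_const]; simp
  exact h1

theorem laurent_eq_zero_iff {h : ℕ} [NeZero h] {f : ℍ → ℂ} (hf : IsMeroInf h f) :
    laurent h f = 0 ↔ f = 0 := by
  obtain ⟨n, hn⟩ := hf.2.2
  constructor
  · intro h0
    have h1 := laurent_mul_pow hf n hn
    rw [h0, zero_mul] at h1
    have h2 : qExpansion h (fun z => f z * Dl z ^ n) = 0 := by
      apply HahnSeries.ofPowerSeries_injective (Γ := ℤ)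
      rw [map_zero]
      exact h1.symm
    rw [qExpansion_eq_zero_iff' (hf.isHolBdd hn)] at h2
    funext z
    have h3 := congrFun h2 z
    simp only [Pi.zero_apply, mul_eq_zero] at h3
    rcases h3 with h3 | h3
    · exact h3
    · exact absurd h3 (pow_ne_zero _ (Dl_ne_zero z))
  · rintro rfl
    have h0 : laurent h (fun _ => (0 : ℂ)) = 0 := by rw [laurent_const]; simp
    exact h0

/-- the Laurent expansion in `q_h = exp (2 π i z / h)` as an algebra homomorphism -/
noncomputable def laurentHom (h : ℕ) [NeZero h] : meroInf h →ₐ[ℂ] LaurentSeries ℂ where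
  toFun f := laurent h f.1
  map_one' := laurent_one h
  map_mul' f g := laurent_mul f.2 g.2
  map_zero' := by
    have h0 : laurent h (fun _ => (0 : ℂ)) = 0 := by rw [laurent_const]; simp
    exact h0
  map_add' f g := laurent_add f.2 g.2
  commutes' c := by
    have h0 : laurent h (fun _ => c) = HahnSeries.C c := laurent_const h c
    have h1 : algebraMap ℂ (LaurentSeries ℂ) c = HahnSeries.C c := by
      rw [ModularCurve.algebraMap_laurentSeries_eq_single]
      rfl
    rw [h1]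
    exact h0

theorem laurentHom_apply {h : ℕ} [NeZero h] (f : meroInf h) : laurentHom h f = laurent h f.1 := rfl

theorem laurentHom_injective (h : ℕ) [NeZero h] : Function.Injective (laurentHom h) := by
  rw [injective_iff_map_eq_zero]
  intro f hf
  rw [laurentHom_apply, laurent_eq_zero_iff f.2] at hf
  exact Subtype.ext hf

/-! ### change of width -/

theorem ofPowerSeries_expand {m : ℕ} [NeZero m] {P P' : PowerSeries ℂ}
    (hP : ∀ k : ℕ, P'.coeff k = if m ∣ k then P.coeff (k / m) else 0) :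
    HahnSeries.ofPowerSeries ℤ ℂ P' =
      ModularCurve.qExpand ℂ m (HahnSeries.ofPowerSeries ℤ ℂ P) := by
  have hm : 0 < m := Nat.pos_of_ne_zero (NeZero.ne m)
  ext k
  by_cases hk : (m : ℤ) ∣ k
  · obtain ⟨k', rfl⟩ := hk
    rw [ModularCurve.qExpand_coeff_mul]
    rcases lt_or_ge k' 0 with hneg | hpos
    · rw [ModularCurve.ofPowerSeries_coeff_of_neg _ hneg,
        ModularCurve.ofPowerSeries_coeff_of_neg]
      exact mul_neg_of_pos_of_neg (by exact_mod_cast hm) hneg
    · lift k' to ℕ using hpos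
      have e : (m : ℤ) * (k' : ℤ) = ((m * k' : ℕ) : ℤ) := by push_cast; ring
      rw [e, HahnSeries.ofPowerSeries_apply_coeff, HahnSeries.ofPowerSeries_apply_coeff, hP,
        if_pos (dvd_mul_right _ _), Nat.mul_div_cancel_left _ hm]
  · rw [ModularCurve.qExpand_coeff_of_not_dvd _ _ hk]
    rcases lt_or_ge k 0 with hneg | hpos
    · exact ModularCurve.ofPowerSeries_coeff_of_neg _ hneg
    · lift k to ℕ using hpos
      rw [HahnSeries.ofPowerSeries_apply_coeff, hP, if_neg]
      intro hd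
      exact hk (Int.natCast_dvd_natCast.mpr hd)

theorem IsMeroInf.mono {h h' : ℕ} (hdvd : h ∣ h') {f : ℍ → ℂ} (hf : IsMeroInf h f) :
    IsMeroInf h' f := by
  obtain ⟨m, rfl⟩ := hdvd
  exact ⟨hf.1, periodic_mul_of_periodic hf.2.1 m, hf.2.2⟩

theorem IsHolBdd.mono {h h' : ℕ} (hdvd : h ∣ h') {f : ℍ → ℂ} (hf : IsHolBdd h f) :
    IsHolBdd h' f := by
  obtain ⟨m, rfl⟩ := hdvd
  exact ⟨hf.mdiff, periodic_mul_of_periodic hf.per m, hf.bdd⟩

theorem ofPowerSeries_qExpansion_width {h m : ℕ} [NeZero h] [NeZero m] {g : ℍ → ℂ}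
    (hg : IsHolBdd h g) :
    HahnSeries.ofPowerSeries ℤ ℂ (qExpansion ((h * m : ℕ) : ℝ) g) =
      ModularCurve.qExpand ℂ m (HahnSeries.ofPowerSeries ℤ ℂ (qExpansion h g)) := by
  apply ofPowerSeries_expand
  intro k
  have := UpperHalfPlane.qExpansion_coeff_nat_mul (pos_cast h) (periodic_comp_ofComplex hg.per)
    hg.mdiff hg.bdd (M := m) (Nat.pos_of_ne_zero (NeZero.ne m)) k
  rw [← this]
  congr 2
  push_cast
  ring

theorem DlSeries_width (h m : ℕ) [NeZero h] [NeZero m] :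
    DlSeries (h * m) = ModularCurve.qExpand ℂ m (DlSeries h) :=
  ofPowerSeries_qExpansion_width (isHolBdd_Dl h)

/-- change of width: the expansion in `q_{h·m}` is obtained by `q_h = q_{h·m}ᵐ` -/
theorem laurent_mul_width {h m : ℕ} [NeZero h] [NeZero m] {f : ℍ → ℂ} (hf : IsMeroInf h f) :
    laurent (h * m) f = ModularCurve.qExpand ℂ m (laurent h f) := by
  obtain ⟨n, hn⟩ := hf.2.2
  refine laurent_eq_of_mul_pow (hf.mono (dvd_mul_right h m)) n hn _ ?_
  rw [ofPowerSeries_qExpansion_width (hf.isHolBdd hn), ← laurent_mul_pow hf n hn, map_mul, map_pow,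
    DlSeries_width]

/-! ### scaling `z ↦ d z` -/

theorem tendsto_Dl_div_q : Tendsto (fun z : ℍ => Dl z / 𝕢 1 z) atImInfty (𝓝 1) := by
  refine tendsto_atImInfty_tprod_one_sub_eta_q_pow.congr fun z => ?_
  have hq : 𝕢 1 (z : ℂ) ≠ 0 := by simp [Function.Periodic.qParam]
  show _ = ModularForm.discriminant z / _
  rw [discriminant_eq_q_prod z, mul_div_cancel_left₀ _ hq]

section Scale

variable {d : ℕ} {s : ℍ → ℍ}

theorem tendsto_scale (hd : d ≠ 0) (hs : ∀ z, (s z : ℂ) = d * z) :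
    Tendsto s atImInfty atImInfty := by
  rw [atImInfty, tendsto_comap_iff]
  have him : ∀ z : ℍ, (s z).im = d * z.im := by
    intro z
    have := congrArg Complex.im (hs z)
    simpa using this
  have h1 : (UpperHalfPlane.im ∘ s) = fun z : ℍ => (d : ℝ) * z.im := by
    funext z
    exact him z
  rw [h1]
  exact Tendsto.const_mul_atTop (by positivity) tendsto_comap

theorem qParam_scale (h : ℝ) (hs : ∀ z, (s z : ℂ) = d * z) (z : ℍ) :
    𝕢 h (s z) = 𝕢 h z ^ d := by
  simp only [Function.Periodic.qParam]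
  rw [← Complex.exp_nat_mul, hs]
  congr 1
  ring

theorem scale_vadd (hs : ∀ z, (s z : ℂ) = d * z) (h : ℕ) (z : ℍ) :
    s ((h : ℝ) +ᵥ z) = ((h * d : ℕ) : ℝ) +ᵥ s z := by
  apply UpperHalfPlane.ext
  rw [hs, UpperHalfPlane.coe_vadd, UpperHalfPlane.coe_vadd, hs]
  push_cast
  ring

theorem mdiff_comp_scale {g : ℍ → ℂ} (hg : MDiff g) (hd : d ≠ 0)
    (hs : ∀ z, (s z : ℂ) = d * z) : MDiff (fun z => g (s z)) := by
  rw [UpperHalfPlane.mdifferentiable_iff] at hg ⊢
  have hmaps : Set.MapsTo (fun w : ℂ => (d : ℂ) * w) {z | 0 < z.im} {z | 0 < z.im} := by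
    intro w hw
    have hw' : 0 < w.im := hw
    show 0 < ((d : ℂ) * w).im
    simp only [Complex.mul_im, Complex.natCast_re, Complex.natCast_im, zero_mul, add_zero]
    positivity
  have := hg.comp (differentiableOn_id.const_mul (d : ℂ)) hmaps
  refine this.congr ?_
  intro w hw
  simp only [Function.comp_apply]
  congr 1
  apply UpperHalfPlane.ext
  rw [hs, ofComplex_apply_of_im_pos hw, ofComplex_apply_of_im_pos (hmaps hw)]

theorem IsHolBdd.scale {h : ℕ} {g : ℍ → ℂ} (hg : IsHolBdd h g) (hd : d ≠ 0)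
    (hs : ∀ z, (s z : ℂ) = d * z) : IsHolBdd h (fun z => g (s z)) := by
  refine ⟨mdiff_comp_scale hg.mdiff hd hs, fun z => ?_, ?_⟩
  · rw [scale_vadd hs, periodic_mul_of_periodic hg.per]
  · exact hg.bdd.comp_tendsto (tendsto_scale hd hs)

theorem qExpansion_scale {h : ℕ} [NeZero h] [NeZero d] {g : ℍ → ℂ} (hg : IsHolBdd h g)
    (hs : ∀ z, (s z : ℂ) = d * z) (k : ℕ) :
    (qExpansion h (fun z => g (s z))).coeff k =
      if d ∣ k then (qExpansion h g).coeff (k / d) else 0 := by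
  have hd : d ≠ 0 := NeZero.ne d
  symm
  refine qExpansion_coeff_unique' (c := fun k => if d ∣ k then (qExpansion h g).coeff (k / d) else 0)
    (pos_cast h) (hg.scale hd hs).analytic (fun τ => ?_) k
  have h1 := hasSum_qExpansion (pos_cast h) (periodic_comp_ofComplex hg.per) hg.mdiff hg.bdd (s τ)
  rw [qParam_scale _ hs] at h1
  refine (Function.Injective.hasSum_iff (g := fun m : ℕ => d * m)
    (fun a b hab => Nat.eq_of_mul_eq_mul_left (Nat.pos_of_ne_zero hd) hab) ?_).mp ?_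
  · intro x hx
    have : ¬ d ∣ x := fun ⟨c, hc⟩ => hx ⟨c, hc.symm⟩
    simp [this]
  · convert h1 using 1
    funext m
    simp only [Function.comp_apply, dvd_mul_right, if_true,
      Nat.mul_div_cancel_left _ (Nat.pos_of_ne_zero hd), pow_mul]

theorem isBounded_pow {f : ℍ → ℂ} (hb : IsBoundedAtImInfty f) (n : ℕ) :
    IsBoundedAtImInfty (fun z => f z ^ n) := by
  induction n with
  | zero =>
    exact (const_boundedAtFilter atImInfty (1 : ℂ)).congr (fun z => by simp) (fun _ => rfl)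
  | succ n ih =>
    have := ih.mul hb
    exact this.congr (fun z => by simp [pow_succ]) (fun _ => rfl)

theorem isBounded_Dl_pow_div_scale (hd : d ≠ 0) (hs : ∀ z, (s z : ℂ) = d * z) :
    IsBoundedAtImInfty (fun z => Dl z ^ d / Dl (s z)) := by
  have h1 : Tendsto (fun z : ℍ => (Dl z / 𝕢 1 z) ^ d / (Dl (s z) / 𝕢 1 (s z))) atImInfty
      (𝓝 (1 ^ d / 1)) :=
    (tendsto_Dl_div_q.pow d).div (tendsto_Dl_div_q.comp (tendsto_scale hd hs)) one_ne_zero
  have h2 : (fun z : ℍ => (Dl z / 𝕢 1 z) ^ d / (Dl (s z) / 𝕢 1 (s z))) =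
      fun z => Dl z ^ d / Dl (s z) := by
    funext z
    rw [qParam_scale 1 hs]
    have hq : 𝕢 1 (z : ℂ) ≠ 0 := by simp [Function.Periodic.qParam]
    have hD := Dl_ne_zero (s z)
    rw [div_pow]
    field_simp
  rw [h2] at h1
  exact h1.isBigO_one ℝ

theorem IsMeroInf.scale {h : ℕ} {f : ℍ → ℂ} (hf : IsMeroInf h f) (hd : d ≠ 0)
    (hs : ∀ z, (s z : ℂ) = d * z) : IsMeroInf h (fun z => f (s z)) := by
  obtain ⟨n, hn⟩ := hf.2.2
  refine ⟨mdiff_comp_scale hf.1 hd hs,
    fun z => by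
      show f (s ((h : ℝ) +ᵥ z)) = f (s z)
      rw [scale_vadd hs, periodic_mul_of_periodic hf.2.1], d * n, ?_⟩
  have h1 := ((hf.isHolBdd hn).scale hd hs).bdd
  have h3 := isBounded_pow (isBounded_Dl_pow_div_scale hd hs) n
  have := h1.mul h3
  refine this.congr (fun z => ?_) (fun _ => rfl)
  have hD := Dl_ne_zero (s z)
  simp only [Pi.mul_apply]
  rw [div_pow, ← pow_mul]
  field_simp

theorem IsMeroInf.pow {h : ℕ} {f : ℍ → ℂ} (hf : IsMeroInf h f) (n : ℕ) : IsMeroInf h (f ^ n) := by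
  induction n with
  | zero => simpa using isMeroInf_one h
  | succ n ih => simpa [pow_succ] using ih.mul hf

theorem laurent_pow {h : ℕ} [NeZero h] {f : ℍ → ℂ} (hf : IsMeroInf h f) (n : ℕ) :
    laurent h (f ^ n) = laurent h f ^ n := by
  induction n with
  | zero => simpa using laurent_one h
  | succ n ih => rw [pow_succ, laurent_mul (hf.pow n) hf, ih, pow_succ]

/-- scaling `z ↦ d z`: the expansion of `f (d z)` is obtained by `q ↦ q ^ d` -/
theorem laurent_scale {h : ℕ} [NeZero h] [NeZero d] {f : ℍ → ℂ} (hf : IsMeroInf h f)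
    (hs : ∀ z, (s z : ℂ) = d * z) :
    laurent h (fun z => f (s z)) = ModularCurve.qExpand ℂ d (laurent h f) := by
  have hd : d ≠ 0 := NeZero.ne d
  obtain ⟨n, hn⟩ := hf.2.2
  have hfs := hf.scale hd hs
  have hDs : IsHolBdd h (fun z => Dl (s z)) := (isHolBdd_Dl h).scale hd hs
  have hg := hf.isHolBdd hn
  have hgs : IsHolBdd h (fun z => f (s z) * Dl (s z) ^ n) := hg.scale hd hs
  have e1 : laurent h (fun z => Dl (s z)) = ModularCurve.qExpand ℂ d (DlSeries h) := by
    rw [laurent_of_bounded hDs]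
    have key := qExpansion_scale (isHolBdd_Dl h) hs
    exact ofPowerSeries_expand (m := d) (P := qExpansion h Dl)
      (P' := qExpansion h (fun z => Dl (s z))) key
  have e2 : laurent h (fun z => f (s z) * Dl (s z) ^ n) =
      ModularCurve.qExpand ℂ d (laurent h f * DlSeries h ^ n) := by
    rw [laurent_of_bounded hgs, laurent_mul_pow hf n hn]
    have key := qExpansion_scale hg hs
    exact ofPowerSeries_expand (m := d) (P := qExpansion h (fun z => f z * Dl z ^ n))
      (P' := qExpansion h (fun z => f (s z) * Dl (s z) ^ n)) key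
  have e3 : laurent h (fun z => f (s z) * Dl (s z) ^ n) =
      laurent h (fun z => f (s z)) * laurent h (fun z => Dl (s z)) ^ n := by
    have := laurent_mul hfs (hDs.isMeroInf.pow n)
    rw [laurent_pow hDs.isMeroInf] at this
    exact this
  rw [e3, e1, map_mul, map_pow] at e2
  have hne : ModularCurve.qExpand ℂ d (DlSeries h) ≠ 0 :=
    (map_ne_zero_iff _ (ModularCurve.qExpand_injective d)).mpr (DlSeries_ne_zero h)
  exact mul_right_cancel₀ (pow_ne_zero n hne) e2

end Scale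

end Fermat.Agent.S24.Bridge
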